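import Fermat.Agent.Corollaries.HurL.Main

/-!
# The values of the Eisenstein series at `i` and `ρ`

`E_{4k}(i) = r (Γ(1/4)⁸ / π⁶) ^ k` and `E_{6k}(ρ) = r (Γ(1/3)¹⁸ / π¹²) ^ k`, `r` a positive rational
number (`E_I`, `E_rho`), for Mathlib's normalised Eisenstein series of level one.
-/

set_option autoImplicit false

open UpperHalfPlane Fermat.Agent.Moduli ModularForm EisensteinSeries

noncomputable section

namespace Fermat.Agent.Cor.HurL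

/-- `ζ(2 j) = q π ^ (2 j)`, `q` a positive rational number -/
theorem zeta_even {j : ℕ} (hj : j ≠ 0) : ∃ q : ℚ, 0 < q ∧
    riemannZeta ((2 * j : ℕ) : ℂ) = ((q * Real.pi ^ (2 * j) : ℝ) : ℂ) := by
  have h1 := riemannZeta_two_mul_nat hj
  have h2 : riemannZeta ((2 * j : ℕ) : ℂ) =
      ((∑' n : ℕ, 1 / (n : ℝ) ^ (2 * j) : ℝ) : ℂ) := by
    rw [zeta_nat_eq_tsum_of_gt_one (by omega)]
    push_cast
    rfl
  have hsum : Summable fun n : ℕ => 1 / (n : ℝ) ^ (2 * j) :=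
    Real.summable_one_div_nat_pow.mpr (by omega)
  have hpos : 0 < ∑' n : ℕ, 1 / (n : ℝ) ^ (2 * j) :=
    hsum.tsum_pos (fun n => by positivity) 1 (by norm_num)
  refine ⟨(-1) ^ (j + 1) * 2 ^ (2 * j - 1) * bernoulli (2 * j) / (2 * j).factorial, ?_, ?_⟩
  · have h3 : ((((-1) ^ (j + 1) * 2 ^ (2 * j - 1) * bernoulli (2 * j) / (2 * j).factorial : ℚ) : ℝ) *
        Real.pi ^ (2 * j)) = ∑' n : ℕ, 1 / (n : ℝ) ^ (2 * j) := by
      have h4 := h2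
      push_cast at h4
      rw [h1] at h4
      have h5 : ((((((-1) ^ (j + 1) * 2 ^ (2 * j - 1) * bernoulli (2 * j) /
          (2 * j).factorial : ℚ) : ℝ) * Real.pi ^ (2 * j)) : ℝ) : ℂ) =
          ((∑' n : ℕ, 1 / (n : ℝ) ^ (2 * j) : ℝ) : ℂ) := by
        push_cast
        rw [← h4]
        ring
      exact_mod_cast h5
    rw [← h3] at hpos
    have h4 := (mul_pos_iff_of_pos_right (pow_pos Real.pi_pos (2 * j))).mp hpos
    exact_mod_cast h4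
  · push_cast
    rw [h1]
    ring

/-- `E_{4k}(i) = r (Γ(1/4)⁸ / π⁶) ^ k`, `r` a positive rational number. -/
theorem E_I {k : ℕ} (hk : 3 ≤ 4 * k) : ∃ r : ℚ, 0 < r ∧
    E hk UpperHalfPlane.I = ((r * (Real.Gamma (1 / 4) ^ 8 / Real.pi ^ 6) ^ k : ℝ) : ℂ) := by
  obtain ⟨r, hr, h⟩ := gauss_sum (k := k) (by omega)
  obtain ⟨q, hq, hz⟩ := zeta_even (j := 2 * k) (by omega)
  have hpi : (Real.pi : ℂ) ≠ 0 := by exact_mod_cast Real.pi_ne_zero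
  have hq0 : (q : ℂ) ≠ 0 := by exact_mod_cast hq.ne'
  have h1 := G_mkPP 1 one_ne_zero UpperHalfPlane.I hk
  have h2 : (mkPP 1 one_ne_zero UpperHalfPlane.I).G (4 * k) =
      ((r * (Real.Gamma (1 / 4) ^ 8 / Real.pi ^ 2) ^ k : ℝ) : ℂ) := by
    rw [← h, G_eq_tsum]
    rfl
  have h3 : ((4 * k : ℕ) : ℂ) = ((2 * (2 * k) : ℕ) : ℂ) := by
    push_cast
    ring
  rw [h2, one_pow, inv_one, one_mul, h3, hz] at h1
  refine ⟨r / (2 * q), by positivity, ?_⟩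
  have h4 : (2 * ((q * Real.pi ^ (2 * (2 * k)) : ℝ) : ℂ)) ≠ 0 := by
    push_cast
    exact mul_ne_zero two_ne_zero (mul_ne_zero hq0 (pow_ne_zero _ hpi))
  refine mul_left_cancel₀ h4 (h1.symm.trans ?_)
  have h5 : (Real.pi : ℂ) ^ (2 * (2 * k)) = ((Real.pi : ℂ) ^ 4) ^ k := by
    rw [← pow_mul]
    ring_nf
  push_cast
  rw [h5, div_pow, div_pow, show (Real.pi : ℂ) ^ 6 = (Real.pi : ℂ) ^ 4 * (Real.pi : ℂ) ^ 2 by ring,
    mul_pow]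
  have h6 : ((Real.pi : ℂ) ^ 4) ^ k ≠ 0 := pow_ne_zero _ (pow_ne_zero _ hpi)
  have h7 : ((Real.pi : ℂ) ^ 2) ^ k ≠ 0 := pow_ne_zero _ (pow_ne_zero _ hpi)
  field_simp

/-- `E_{6k}(ρ) = r (Γ(1/3)¹⁸ / π¹²) ^ k`, `r` a positive rational number. -/
theorem E_rho {k : ℕ} (hk : 3 ≤ 6 * k) : ∃ r : ℚ, 0 < r ∧
    E hk UpperHalfPlane.ρ = ((r * (Real.Gamma (1 / 3) ^ 18 / Real.pi ^ 12) ^ k : ℝ) : ℂ) := by
  obtain ⟨r, hr, h⟩ := eisenstein_sum (k := k) (by omega)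
  obtain ⟨q, hq, hz⟩ := zeta_even (j := 3 * k) (by omega)
  have hpi : (Real.pi : ℂ) ≠ 0 := by exact_mod_cast Real.pi_ne_zero
  have hq0 : (q : ℂ) ≠ 0 := by exact_mod_cast hq.ne'
  have hρ : ((UpperHalfPlane.ρ : ℍ) : ℂ) = (-1 + √3 * Complex.I) / 2 := by
    apply Complex.ext <;> simp [UpperHalfPlane.ρ]
  have h1 := G_mkPP 1 one_ne_zero UpperHalfPlane.ρ hk
  have h2 : (mkPP 1 one_ne_zero UpperHalfPlane.ρ).G (6 * k) =
      ((r * (Real.Gamma (1 / 3) ^ 18 / Real.pi ^ 6) ^ k : ℝ) : ℂ) := by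
    rw [← h, G_eq_tsum, hρ]
  have h3 : ((6 * k : ℕ) : ℂ) = ((2 * (3 * k) : ℕ) : ℂ) := by
    push_cast
    ring
  rw [h2, one_pow, inv_one, one_mul, h3, hz] at h1
  refine ⟨r / (2 * q), by positivity, ?_⟩
  have h4 : (2 * ((q * Real.pi ^ (2 * (3 * k)) : ℝ) : ℂ)) ≠ 0 := by
    push_cast
    exact mul_ne_zero two_ne_zero (mul_ne_zero hq0 (pow_ne_zero _ hpi))
  refine mul_left_cancel₀ h4 (h1.symm.trans ?_)
  have h5 : (Real.pi : ℂ) ^ (2 * (3 * k)) = ((Real.pi : ℂ) ^ 6) ^ k := by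
    rw [← pow_mul]
    ring_nf
  push_cast
  rw [h5, div_pow, div_pow, show (Real.pi : ℂ) ^ 12 = (Real.pi : ℂ) ^ 6 * (Real.pi : ℂ) ^ 6 by ring,
    mul_pow]
  have h6 : ((Real.pi : ℂ) ^ 6) ^ k ≠ 0 := pow_ne_zero _ (pow_ne_zero _ hpi)
  field_simp

end Fermat.Agent.Cor.HurL

end
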