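import Fermat.Agent.Corollaries.HurL.Rec

/-!
# Lattice sums of lattices with complex multiplication by `i` or `ρ`: the induction

If `G_n = 0` for `3 ≤ n ≤ 6`, `n ≠ d`, and `G_d = ω ^ d` then `G_n = r_n ω ^ n` for all `n ≥ 3` with
`r_n` rational, positive for `d ∣ n` and `0` otherwise (`exists_rat`).
-/

set_option autoImplicit false

open Finset.HasAntidiagonal (antidiagonal)

noncomputable section

namespace Fermat.Agent.Cor.HurL

theorem exists_rat {g : ℕ → ℂ} (hrec : ∀ n : ℕ, ((n : ℂ) + 1) * (n + 8) * (n + 6) * g (n + 7) =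
      6 * ∑ x ∈ Finset.HasAntidiagonal.antidiagonal (n + 1),
        ((x.1 : ℂ) + 2) * (x.2 + 2) * (g (x.1 + 3) * g (x.2 + 3))) {d : ℕ} (hd : 4 ≤ d)
    (hd' : d ≤ 6) {ω : ℂ} (h3 : ∀ n, 3 ≤ n → n ≤ 6 → g n = if n = d then ω ^ d else 0) (n : ℕ)
    (hn : 3 ≤ n) : ∃ r : ℚ, g n = r * ω ^ n ∧ 0 ≤ r ∧ (d ∣ n → 0 < r) ∧ (¬ d ∣ n → r = 0) := by
  induction n using Nat.strong_induction_on with
  | _ n ih =>
    by_cases h6 : n ≤ 6
    · rw [h3 n hn h6]
      by_cases hnd : n = d
      · subst hnd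
        exact ⟨1, by simp, zero_le_one, fun _ => one_pos, fun h => absurd (dvd_refl n) h⟩
      · refine ⟨0, by simp [hnd], le_refl _, fun ⟨k, hk⟩ => ?_, fun _ => rfl⟩
        exfalso
        rcases k with _ | _ | k
        · omega
        · exact hnd (by rw [hk]; ring)
        · have : 4 * (k + 1 + 1) ≤ d * (k + 1 + 1) := Nat.mul_le_mul_right _ hd
          omega
    · obtain ⟨m, rfl⟩ : ∃ m, n = m + 7 := ⟨n - 7, by omega⟩
      have ih' : ∀ k : ℕ, ∃ r : ℚ, 3 ≤ k → k < m + 7 →
          (g k = r * ω ^ k ∧ 0 ≤ r ∧ (d ∣ k → 0 < r) ∧ (¬ d ∣ k → r = 0)) := by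
        intro k
        by_cases hk : 3 ≤ k ∧ k < m + 7
        · obtain ⟨r, hr⟩ := ih k hk.2 hk.1
          exact ⟨r, fun _ _ => hr⟩
        · exact ⟨0, fun h1 h2 => absurd ⟨h1, h2⟩ hk⟩
      choose r hr using ih'
      have hx : ∀ x ∈ Finset.HasAntidiagonal.antidiagonal (m + 1), x.1 + x.2 = m + 1 := fun x hx =>
        Finset.HasAntidiagonal.mem_antidiagonal.mp hx
      have hr1 : ∀ x ∈ Finset.HasAntidiagonal.antidiagonal (m + 1),
          (g (x.1 + 3) = r (x.1 + 3) * ω ^ (x.1 + 3) ∧ 0 ≤ r (x.1 + 3) ∧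
            (d ∣ x.1 + 3 → 0 < r (x.1 + 3)) ∧ (¬ d ∣ x.1 + 3 → r (x.1 + 3) = 0)) ∧
          (g (x.2 + 3) = r (x.2 + 3) * ω ^ (x.2 + 3) ∧ 0 ≤ r (x.2 + 3) ∧
            (d ∣ x.2 + 3 → 0 < r (x.2 + 3)) ∧ (¬ d ∣ x.2 + 3 → r (x.2 + 3) = 0)) := fun x h => by
        have := hx x h
        exact ⟨hr _ (by omega) (by omega), hr _ (by omega) (by omega)⟩
      have hterm : ∀ x ∈ Finset.HasAntidiagonal.antidiagonal (m + 1),
          (0 : ℚ) ≤ ((x.1 : ℚ) + 2) * (x.2 + 2) * (r (x.1 + 3) * r (x.2 + 3)) := fun x h => by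
        obtain ⟨⟨-, h1, -⟩, -, h2, -⟩ := hr1 x h
        positivity
      refine ⟨6 * (∑ x ∈ Finset.HasAntidiagonal.antidiagonal (m + 1),
        ((x.1 : ℚ) + 2) * (x.2 + 2) * (r (x.1 + 3) * r (x.2 + 3))) /
          (((m : ℚ) + 1) * (m + 8) * (m + 6)), ?_, ?_, fun hdvd => ?_, fun hdvd => ?_⟩
      · have h1 := hrec m
        have h2 : ∑ x ∈ Finset.HasAntidiagonal.antidiagonal (m + 1),
            ((x.1 : ℂ) + 2) * (x.2 + 2) * (g (x.1 + 3) * g (x.2 + 3)) =
            ((∑ x ∈ Finset.HasAntidiagonal.antidiagonal (m + 1),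
              ((x.1 : ℚ) + 2) * (x.2 + 2) * (r (x.1 + 3) * r (x.2 + 3)) : ℚ) : ℂ) *
              ω ^ (m + 7) := by
          push_cast
          rw [Finset.sum_mul]
          refine Finset.sum_congr rfl fun x h => ?_
          obtain ⟨⟨h4, -⟩, h5, -⟩ := hr1 x h
          have h6 : m + 7 = (x.1 + 3) + (x.2 + 3) := by
            have := hx x h
            omega
          rw [h4, h5, h6, pow_add]
          ring
        rw [h2] at h1
        have h4 : ((m : ℂ) + 1) * (m + 8) * (m + 6) ≠ 0 := by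
          have e : ((m : ℂ) + 1) * (m + 8) * (m + 6) = (((m + 1) * (m + 8) * (m + 6) : ℕ) : ℂ) := by
            push_cast
            ring
          rw [e, Nat.cast_ne_zero]
          positivity
        refine mul_left_cancel₀ h4 ?_
        rw [h1]
        generalize (∑ x ∈ Finset.HasAntidiagonal.antidiagonal (m + 1),
          ((x.1 : ℚ) + 2) * (x.2 + 2) * (r (x.1 + 3) * r (x.2 + 3))) = S
        have e : ((6 * S / (((m : ℚ) + 1) * (m + 8) * (m + 6)) : ℚ) : ℂ) =
            6 * (S : ℂ) / (((m : ℂ) + 1) * (m + 8) * (m + 6)) := by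
          push_cast
          rfl
        rw [e, div_mul_eq_mul_div, mul_div_cancel₀ _ h4]
        ring
      · exact div_nonneg (mul_nonneg (by norm_num) (Finset.sum_nonneg hterm)) (by positivity)
      · refine div_pos (mul_pos (by norm_num) ?_) (by positivity)
        obtain ⟨k, hk⟩ := hdvd
        have hk2 : 2 ≤ k := by
          by_contra hcon
          have : k ≤ 1 := by omega
          have : d * k ≤ d * 1 := Nat.mul_le_mul_left _ this
          omega
        have h2d : d * 2 ≤ d * k := Nat.mul_le_mul_left _ hk2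
        have hmem : (d - 3, m + 4 - d) ∈ Finset.HasAntidiagonal.antidiagonal (m + 1) := by
          rw [Finset.HasAntidiagonal.mem_antidiagonal]
          simp only
          omega
        refine Finset.sum_pos' hterm ⟨_, hmem, ?_⟩
        obtain ⟨⟨-, -, h1, -⟩, -, -, h2, -⟩ := hr1 _ hmem
        have h4 : 0 < r (d - 3 + 3) := h1 (by
          simp only
          rw [Nat.sub_add_cancel (by omega)])
        have h5 : 0 < r (m + 4 - d + 3) := h2 (by
          simp only
          refine ⟨k - 1, ?_⟩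
          rw [Nat.mul_sub, mul_one]
          omega)
        simp only
        positivity
      · have h0 : ∑ x ∈ Finset.HasAntidiagonal.antidiagonal (m + 1),
            ((x.1 : ℚ) + 2) * (x.2 + 2) * (r (x.1 + 3) * r (x.2 + 3)) = 0 := by
          refine Finset.sum_eq_zero fun x h => ?_
          obtain ⟨⟨-, -, -, h1⟩, -, -, -, h2⟩ := hr1 x h
          by_cases ha : d ∣ x.1 + 3
          · have hb : ¬ d ∣ x.2 + 3 := fun hb => hdvd (by
              have h4 := Nat.dvd_add ha hb
              have h5 := hx x h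
              rwa [show x.1 + 3 + (x.2 + 3) = m + 7 by omega] at h4)
            rw [h2 hb, mul_zero, mul_zero]
          · rw [h1 ha, zero_mul, mul_zero]
        rw [h0, mul_zero, zero_div]

end Fermat.Agent.Cor.HurL

end
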