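import Fermat.Agent.Corollaries.HurL.Eis
import Fermat.Agent.Corollaries.Tau.Bernoulli

/-!
# The sums `∑ n ^ (4 k + 1) / (e ^ (2 π n) - 1)`

`∑_{n ≥ 1} n ^ (4 k + 1) / (e ^ (2 π n) - 1) = B_(4k+2) / (8 k + 4)` for `k ≥ 1` (`lambert`; Glaisher
1889), with the value `1 / 504` for `k = 1` and `1 / 24` for `k = 3` (`ramanujan`, in Ramanujan's
first letter to Hardy), from `E_(4k+2)(i) = 0` (`E_I_zero`).
-/

set_option autoImplicit false

open UpperHalfPlane Fermat.Agent.Moduli ModularForm EisensteinSeries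

noncomputable section

namespace Fermat.Agent.Cor.HurL

theorem E_I_zero {n : ℕ} (hn : 3 ≤ n) (he : Even n) (h4 : ¬ 4 ∣ n) :
    E hn UpperHalfPlane.I = 0 := by
  obtain ⟨ω, r, -, h1, -, h3⟩ := gauss_aux hn
  obtain ⟨j, hj⟩ := he
  obtain ⟨q, hq, hz⟩ := zeta_even (j := j) (by omega)
  have hpi : (Real.pi : ℂ) ≠ 0 := by exact_mod_cast Real.pi_ne_zero
  have hq0 : (q : ℂ) ≠ 0 := by exact_mod_cast hq.ne'
  have hz' : riemannZeta (n : ℂ) ≠ 0 := by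
    rw [show n = 2 * j by omega, hz]
    push_cast
    exact mul_ne_zero hq0 (pow_ne_zero _ hpi)
  rw [h3 h4, Rat.cast_zero, zero_mul, G_mkPP 1 one_ne_zero _ hn, one_pow, inv_one, one_mul] at h1
  rcases mul_eq_zero.mp h1 with h5 | h5
  · exact absurd h5 (mul_ne_zero two_ne_zero hz')
  · exact h5

/-- **Glaisher (1889)**: `∑ n ^ (4 k + 1) / (e ^ (2 π n) - 1) = B_(4k+2) / (8 k + 4)`, `k ≥ 1`. -/
theorem lambert {k : ℕ} (hk : 1 ≤ k) :
    ∑' n : ℕ+, ((n : ℕ) : ℝ) ^ (4 * k + 1) / (Real.exp (2 * Real.pi * ((n : ℕ) : ℝ)) - 1) =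
      (bernoulli (4 * k + 2) : ℝ) / (8 * k + 4) := by
  have hk3 : 3 ≤ 4 * k + 2 := by omega
  have h0 := E_I_zero (n := 4 * k + 2) hk3 ⟨2 * k + 1, by ring⟩ (by omega)
  have h := EisensteinSeries.q_expansion_bernoulli (k := 4 * k + 2) hk3 ⟨2 * k + 1, by ring⟩
    UpperHalfPlane.I
  have hq : Complex.exp (2 * (Real.pi : ℂ) * Complex.I * ((UpperHalfPlane.I : ℍ) : ℂ)) =
      ((Real.exp (-(2 * Real.pi)) : ℝ) : ℂ) := by
    rw [UpperHalfPlane.coe_I, Complex.ofReal_exp]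
    congr 1
    push_cast
    linear_combination (2 * (Real.pi : ℂ)) * Complex.I_mul_I
  rw [h0, hq, show 4 * k + 2 - 1 = 4 * k + 1 by omega] at h
  set r := Real.exp (-(2 * Real.pi)) with hr
  have hr0 : 0 < r := Real.exp_pos _
  have hr1 : r < 1 := by
    rw [hr, Real.exp_lt_one_iff]
    have := Real.pi_pos
    linarith
  have hL := tsum_pow_div_one_sub_eq_tsum_sigma (𝕜 := ℝ) (r := r)
    (by rw [Real.norm_eq_abs, abs_of_pos hr0]; exact hr1) (4 * k + 1)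
  have hS : (∑' n : ℕ+, (ArithmeticFunction.sigma (4 * k + 1) n : ℂ) * ((r : ℝ) : ℂ) ^ ((n : ℕ) : ℤ)) =
      ((∑' n : ℕ+, (ArithmeticFunction.sigma (4 * k + 1) n : ℝ) * r ^ (n : ℕ) : ℝ) : ℂ) := by
    push_cast
    simp only [zpow_natCast]
  rw [hS, ← hL] at h
  have e : ∀ n : ℕ+, ((n : ℕ) : ℝ) ^ (4 * k + 1) * r ^ (n : ℕ) / (1 - r ^ (n : ℕ)) =
      ((n : ℕ) : ℝ) ^ (4 * k + 1) / (Real.exp (2 * Real.pi * ((n : ℕ) : ℝ)) - 1) := by
    intro n
    have h1 : r ^ (n : ℕ) = (Real.exp (2 * Real.pi * ((n : ℕ) : ℝ)))⁻¹ := by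
      rw [hr, ← Real.exp_nat_mul, ← Real.exp_neg]
      congr 1
      ring
    have h2 : (1 : ℝ) < Real.exp (2 * Real.pi * ((n : ℕ) : ℝ)) := by
      rw [Real.one_lt_exp_iff]
      have : (0 : ℝ) < ((n : ℕ) : ℝ) := by exact_mod_cast n.pos
      have := Real.pi_pos
      positivity
    have h3 : Real.exp (2 * Real.pi * ((n : ℕ) : ℝ)) - 1 ≠ 0 := by linarith
    rw [h1]
    generalize Real.exp (2 * Real.pi * ((n : ℕ) : ℝ)) = y at *
    have h4 : y ≠ 0 := by linarith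
    have h5 : 1 - y⁻¹ ≠ 0 := by
      intro h6
      apply h3
      field_simp at h6
      rwa [mul_zero] at h6
    field_simp
  simp only [e] at h
  set S := ∑' n : ℕ+, ((n : ℕ) : ℝ) ^ (4 * k + 1) /
    (Real.exp (2 * Real.pi * ((n : ℕ) : ℝ)) - 1) with hSdef
  have h2 : (0 : ℝ) = 1 - (2 * ((4 * k + 2 : ℕ) : ℝ) / (bernoulli (4 * k + 2) : ℝ)) * S := by
    have : ((0 : ℝ) : ℂ) = ((1 - (2 * ((4 * k + 2 : ℕ) : ℝ) / (bernoulli (4 * k + 2) : ℝ)) * S : ℝ) : ℂ) := by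
      push_cast at h ⊢
      exact h
    exact_mod_cast this
  have hB : (bernoulli (4 * k + 2) : ℝ) ≠ 0 := by
    intro hB
    rw [hB, div_zero, zero_mul, sub_zero] at h2
    exact zero_ne_one h2
  rw [eq_div_iff (by positivity)]
  field_simp at h2
  push_cast at h2
  linarith

/-- `∑ n⁵ / (e ^ (2 π n) - 1) = 1 / 504` -/
theorem lambert_five :
    ∑' n : ℕ+, ((n : ℕ) : ℝ) ^ 5 / (Real.exp (2 * Real.pi * ((n : ℕ) : ℝ)) - 1) = 1 / 504 := by
  have h := lambert (k := 1) le_rfl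
  have hb : bernoulli 6 = 1 / 42 := by
    rw [bernoulli_eq_bernoulli'_of_ne_one (by norm_num), bernoulli'_def]
    have h5 : bernoulli' 5 = 0 := bernoulli'_eq_zero_of_odd (by decide) (by norm_num)
    norm_num [Finset.sum_range_succ, Finset.sum_range_succ', Nat.choose, h5]
  norm_num [hb] at h ⊢
  exact h

/-- **Ramanujan's letter to Hardy (1913)**: `∑ n¹³ / (e ^ (2 π n) - 1) = 1 / 24`. -/
theorem ramanujan :
    ∑' n : ℕ+, ((n : ℕ) : ℝ) ^ 13 / (Real.exp (2 * Real.pi * ((n : ℕ) : ℝ)) - 1) = 1 / 24 := by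
  have h := lambert (k := 3) (by norm_num)
  norm_num [Tau.bernoulli_14] at h ⊢
  exact h

end Fermat.Agent.Cor.HurL

end
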