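import Fermat.Agent.Corollaries.HurL.Main
import Fermat.Agent.Corollaries.Sch.Gamma

/-!
# Hurwitz' theorem in terms of the lemniscate constant; transcendence of the lattice sums

`lem = 2 ∫₀¹ dt / √(1 - t⁴)` is the lemniscate constant (half of the length of the lemniscate).

* `hurwitz`: `∑ 1 / (m + n i) ^ (4 k) = r lem ^ (4 k)`, `r` a positive rational number;
  `hurwitz_four`: `lem ⁴ / 15` for `k = 1`; `hurwitz_eight`: `lem ⁸ / 525` for `k = 2`;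
* `transcendental_gauss_sum`, `transcendental_eisenstein_sum`: the sums `∑ 1 / (m + n i) ^ (4 k)` and
  `∑ 1 / (m + n ρ) ^ (6 k)` are transcendental for every `k ≥ 1`.
-/

set_option autoImplicit false

open Fermat.Agent.Cor.Sch

noncomputable section

namespace Fermat.Agent.Cor.HurL

/-- the lemniscate constant -/
def lem : ℝ := 2 * ∫ t in (0 : ℝ)..1, 1 / √(1 - t ^ 4)

theorem gamma_eq_lem : Real.Gamma (1 / 4) ^ 8 / Real.pi ^ 2 = 64 * lem ^ 4 := by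
  have h1 := integral_eq_gamma (n := 4) (by norm_num)
  rw [show (1 / ((4 : ℕ) : ℝ) + 1 / 2 : ℝ) = 3 / 4 by norm_num,
    show ((4 : ℕ) : ℝ) = 4 by norm_num, Kron.gamma_three_quarters] at h1
  have hG := gamma_quarter_pos
  have hpi : (0 : ℝ) < Real.pi := Real.pi_pos
  have h2 : √2 ^ 2 = (2 : ℝ) := Real.sq_sqrt (by norm_num)
  have h3 : √Real.pi ^ 2 = Real.pi := Real.sq_sqrt hpi.le
  have h4 : Real.Gamma (1 / 4) ^ 4 / Real.pi =
      32 * (∫ t in (0 : ℝ)..1, 1 / √(1 - t ^ 4) : ℝ) ^ 2 := by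
    rw [h1, div_pow, mul_pow, mul_pow, div_pow, mul_pow, h2, h3]
    field_simp
    norm_num
  have h5 : Real.Gamma (1 / 4) ^ 8 / Real.pi ^ 2 = (Real.Gamma (1 / 4) ^ 4 / Real.pi) ^ 2 := by
    rw [div_pow]
    ring
  rw [h5, h4, lem]
  ring

/-- **Hurwitz (1899)**: for `k ≥ 1`, `∑ 1 / (m + n i) ^ (4 k)` is a positive rational multiple of the
power `4 k` of the lemniscate constant. -/
theorem hurwitz {k : ℕ} (hk : 1 ≤ k) : ∃ r : ℚ, 0 < r ∧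
    ∑' x : ℤ × ℤ, (((x.1 : ℂ) + x.2 * Complex.I) ^ (4 * k))⁻¹ = ((r * lem ^ (4 * k) : ℝ) : ℂ) := by
  obtain ⟨r, hr, h⟩ := gauss_sum hk
  refine ⟨r * 64 ^ k, by positivity, ?_⟩
  rw [h, gamma_eq_lem]
  push_cast
  rw [mul_pow, pow_mul]
  ring

/-- `∑ 1 / (m + n i) ^ 4 = lem ⁴ / 15` -/
theorem hurwitz_four : ∑' x : ℤ × ℤ, (((x.1 : ℂ) + x.2 * Complex.I) ^ 4)⁻¹ =
    ((lem ^ 4 / 15 : ℝ) : ℂ) := by
  have h : Real.Gamma (1 / 4) ^ 8 / (960 * Real.pi ^ 2) = lem ^ 4 / 15 := by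
    have h1 := gamma_eq_lem
    rw [mul_comm (960 : ℝ), ← div_div, h1]
    ring
  rw [gauss_sum_four, h]

/-- `∑ 1 / (m + n i) ^ 8 = lem ⁸ / 525` -/
theorem hurwitz_eight : ∑' x : ℤ × ℤ, (((x.1 : ℂ) + x.2 * Complex.I) ^ 8)⁻¹ =
    ((lem ^ 8 / 525 : ℝ) : ℂ) := by
  have h : Real.Gamma (1 / 4) ^ 16 / (2150400 * Real.pi ^ 4) = lem ^ 8 / 525 := by
    have h1 := gamma_eq_lem
    have h2 : Real.Gamma (1 / 4) ^ 16 / (2150400 * Real.pi ^ 4) =
        (Real.Gamma (1 / 4) ^ 8 / Real.pi ^ 2) ^ 2 / 2150400 := by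
      rw [div_pow]
      field_simp
    rw [h2, h1]
    ring
  rw [gauss_sum_eight, h]

theorem transcendental_mul {r : ℚ} (hr : 0 < r) {x : ℝ} (hx : Transcendental ℚ x) {k : ℕ}
    (hk : 1 ≤ k) : Transcendental ℚ (((r : ℝ) * x ^ k : ℝ) : ℂ) := by
  intro h
  apply hx
  have h1 : IsAlgebraic ℚ ((r : ℝ) * x ^ k) := by
    rwa [← isAlgebraic_algebraMap_iff (R := ℚ) (A := ℂ) (Complex.ofReal_injective)]
  have hr0 : (r : ℝ) ≠ 0 := by exact_mod_cast hr.ne'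
  have h2 : IsAlgebraic ℚ (x ^ k) := by
    have h3 : x ^ k = ((r⁻¹ : ℚ) : ℝ) * ((r : ℝ) * x ^ k) := by
      push_cast
      rw [← mul_assoc, inv_mul_cancel₀ hr0, one_mul]
    rw [h3]
    exact (isAlgebraic_algebraMap (R := ℚ) (A := ℝ) r⁻¹).mul h1
  exact IsAlgebraic.of_pow (by omega) h2

/-- The sums `∑ 1 / (m + n i) ^ (4 k)` are transcendental. -/
theorem transcendental_gauss_sum {k : ℕ} (hk : 1 ≤ k) :
    Transcendental ℚ (∑' x : ℤ × ℤ, (((x.1 : ℂ) + x.2 * Complex.I) ^ (4 * k))⁻¹) := by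
  obtain ⟨r, hr, h⟩ := gauss_sum hk
  rw [h, show (Real.Gamma (1 / 4) ^ 8 / Real.pi ^ 2) ^ k =
    (Real.Gamma (1 / 4) ^ 4 / Real.pi) ^ (2 * k) by rw [pow_mul, div_pow]; ring_nf]
  exact transcendental_mul hr gamma_quarter (by omega)

/-- The sums `∑ 1 / (m + n ρ) ^ (6 k)` are transcendental. -/
theorem transcendental_eisenstein_sum {k : ℕ} (hk : 1 ≤ k) :
    Transcendental ℚ (∑' x : ℤ × ℤ,
      (((x.1 : ℂ) + x.2 * ((-1 + √3 * Complex.I) / 2)) ^ (6 * k))⁻¹) := by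
  obtain ⟨r, hr, h⟩ := eisenstein_sum hk
  rw [h, show (Real.Gamma (1 / 3) ^ 18 / Real.pi ^ 6) ^ k =
    (Real.Gamma (1 / 3) ^ 3 / Real.pi) ^ (6 * k) by rw [pow_mul, div_pow]; ring_nf]
  exact transcendental_mul hr gamma_third (by omega)

end Fermat.Agent.Cor.HurL

end
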