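/-
The value of the sum of the fourth powers over the Gaussian lattice (helper85, for helper28's HUL).
-/
import Fermat.Agent.Moduli.Eisen
import Fermat.Agent.Corollaries.Kron.EtaVal

/-!
# `∑ 1 / (m + n i)⁴ = Γ(1/4)⁸ / (960 π²)`
-/

set_option autoImplicit false

open UpperHalfPlane ModularForm EisensteinSeries

open scoped PeriodPair

namespace Fermat.Agent.Cor.HurL

open Fermat.Agent.Moduli Fermat.Agent.JLevelOne

/-- `E₄(i)` is a positive real number. -/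
theorem E₄_I_pos : ∃ r : ℝ, 0 < r ∧ E₄ UpperHalfPlane.I = (r : ℂ) := by
  have hb : bernoulli 4 = -1 / 30 := by
    rw [bernoulli_eq_bernoulli'_of_ne_one (by norm_num), bernoulli'_four]
  have h := EisensteinSeries.q_expansion_bernoulli (k := 4) (by norm_num) (by decide)
    UpperHalfPlane.I
  have hq : Complex.exp (2 * (Real.pi : ℂ) * Complex.I * ((UpperHalfPlane.I : ℍ) : ℂ)) =
      ((Real.exp (-(2 * Real.pi)) : ℝ) : ℂ) := by
    rw [UpperHalfPlane.coe_I, Complex.ofReal_exp]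
    congr 1
    push_cast
    linear_combination (2 * (Real.pi : ℂ)) * Complex.I_mul_I
  rw [hq, hb] at h
  refine ⟨1 + 240 * ∑' n : ℕ+, ((ArithmeticFunction.sigma 3 (n : ℕ) : ℕ) : ℝ) *
    Real.exp (-(2 * Real.pi)) ^ ((n : ℕ) : ℤ), ?_, ?_⟩
  · have : 0 ≤ ∑' n : ℕ+, ((ArithmeticFunction.sigma 3 (n : ℕ) : ℕ) : ℝ) *
        Real.exp (-(2 * Real.pi)) ^ ((n : ℕ) : ℤ) :=
      tsum_nonneg fun n => mul_nonneg (Nat.cast_nonneg _) (zpow_nonneg (Real.exp_pos _).le _)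
    linarith
  · have e : E₄ UpperHalfPlane.I = E (k := 4) (by norm_num) UpperHalfPlane.I := rfl
    rw [e, h]
    push_cast
    norm_num

theorem E₄_I : E₄ UpperHalfPlane.I = ((3 * Real.Gamma (1 / 4) ^ 8 / (64 * Real.pi ^ 6) : ℝ) : ℂ) := by
  obtain ⟨r, hr0, hr⟩ := E₄_I_pos
  have hG : 0 < Real.Gamma (1 / 4) := Real.Gamma_pos_of_pos (by norm_num)
  have hpi : (0 : ℝ) < Real.pi := Real.pi_pos
  have hj : jFun UpperHalfPlane.I * discriminant UpperHalfPlane.I = E₄ UpperHalfPlane.I ^ 3 :=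
    jFun_mul_discriminant _
  rw [jFun_I, hr] at hj
  have hd : discriminant UpperHalfPlane.I = eta ((UpperHalfPlane.I : ℍ) : ℂ) ^ 24 := rfl
  rw [hd, UpperHalfPlane.coe_I] at hj
  have hn := congrArg norm hj
  rw [norm_mul, norm_pow, norm_pow, Kron.norm_eta_I, Complex.norm_real, Real.norm_eq_abs,
    abs_of_pos hr0] at hn
  have h1728 : ‖(1728 : ℂ)‖ = 1728 := by norm_num
  have hp : (Real.pi ^ (3 / 4 : ℝ)) ^ 24 = Real.pi ^ 18 := by
    rw [← Real.rpow_natCast (Real.pi ^ (3 / 4 : ℝ)) 24, ← Real.rpow_mul hpi.le,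
      ← Real.rpow_natCast Real.pi 18]
    norm_num
  rw [h1728, div_pow, mul_pow, hp] at hn
  rw [hr]
  congr 1
  refine (pow_left_inj₀ hr0.le (by positivity) (by norm_num : (3 : ℕ) ≠ 0)).mp ?_
  rw [← hn]
  field_simp
  norm_num

/-- **`∑ 1 / (m + n i)⁴ = Γ(1/4)⁸ / (960 π²)`** -/
theorem G4_I : (mkPP 1 one_ne_zero UpperHalfPlane.I).G 4 =
    ((Real.Gamma (1 / 4) ^ 8 / (960 * Real.pi ^ 2) : ℝ) : ℂ) := by
  have h := g₂_mkPP 1 one_ne_zero UpperHalfPlane.I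
  rw [PeriodPair.g₂, E₄_I] at h
  have hpi : (Real.pi : ℂ) ≠ 0 := by exact_mod_cast Real.pi_ne_zero
  have h2 : (mkPP 1 one_ne_zero UpperHalfPlane.I).G 4 = (2 * (Real.pi : ℂ) / 1) ^ 4 *
      ((3 * Real.Gamma (1 / 4) ^ 8 / (64 * Real.pi ^ 6) : ℝ) : ℂ) / 12 / 60 := by
    rw [← h]; ring
  rw [h2]
  push_cast
  field_simp
  ring

/-- `∑ 1 / (m + n i)⁶ = 0` -/
theorem G6_I : (mkPP 1 one_ne_zero UpperHalfPlane.I).G 6 = 0 := by
  have h := g₃_mkPP 1 one_ne_zero UpperHalfPlane.I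
  rw [PeriodPair.g₃, E₆_I, mul_zero, zero_div] at h
  rcases mul_eq_zero.1 h with h | h
  · norm_num at h
  · exact h

end Fermat.Agent.Cor.HurL
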