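import Fermat.Agent.Moduli.Eisen
import Fermat.Agent.Corollaries.Kron.EtaVal
import Fermat.Agent.Corollaries.Kron.EtaMod

/-!
# `∑ 1 / (m + n ρ)⁶ = Γ(1/3)¹⁸ / (8960 π⁶)`
-/

set_option autoImplicit false

open UpperHalfPlane ModularForm EisensteinSeries

open scoped PeriodPair

namespace Fermat.Agent.Cor.HurL

open Fermat.Agent.Moduli Fermat.Agent.JLevelOne

theorem pow_six_le (n : ℕ) : (n + 2) ^ 6 ≤ 64 * 12 ^ n := by
  induction n with
  | zero => norm_num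
  | succ n ih =>
    have h1 : (2 * (n + 3)) ^ 6 ≤ (3 * (n + 2)) ^ 6 := Nat.pow_le_pow_left (by omega) 6
    have h2 : 64 * (n + 3) ^ 6 ≤ 729 * (n + 2) ^ 6 := by
      calc 64 * (n + 3) ^ 6 = (2 * (n + 3)) ^ 6 := by ring
        _ ≤ (3 * (n + 2)) ^ 6 := h1
        _ = _ := by ring
    have h3 : (n + 1 + 2) ^ 6 = (n + 3) ^ 6 := by ring
    have h4 : 64 * 12 ^ (n + 1) = 12 * (64 * 12 ^ n) := by ring
    rw [h3, h4]
    omega

theorem exp_lt : Real.exp (-(Real.pi * √3)) < 1 / 200 := by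
  have h1 : (5.4 : ℝ) ≤ Real.pi * √3 := by
    have hp := Real.pi_gt_d2
    have hs : (1.73 : ℝ) ≤ √3 := Real.le_sqrt_of_sq_le (by norm_num)
    nlinarith
  have h2 : (200 : ℝ) < Real.exp 5.4 := by
    have h3 := Real.exp_one_gt_d9
    have h4 : (1.4 : ℝ) ≤ Real.exp 0.4 := by
      have := Real.add_one_le_exp (0.4 : ℝ)
      linarith
    have h5 : Real.exp 5.4 = Real.exp 1 ^ 5 * Real.exp 0.4 := by
      rw [← Real.exp_nat_mul, ← Real.exp_add]
      norm_num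
    have h6 : (2.718 : ℝ) ^ 5 ≤ Real.exp 1 ^ 5 :=
      pow_le_pow_left₀ (by norm_num) (by linarith) 5
    rw [h5]
    have h7 : (200 : ℝ) < 2.718 ^ 5 * 1.4 := by norm_num
    calc (200 : ℝ) < 2.718 ^ 5 * 1.4 := h7
      _ ≤ _ := mul_le_mul h6 h4 (by norm_num) (by positivity)
  rw [Real.exp_neg, inv_eq_one_div]
  exact one_div_lt_one_div_of_lt (by norm_num) (h2.trans_le (Real.exp_le_exp.mpr h1))

/-- `E₆(ρ)` is a positive real number. -/
theorem E₆_ρ_pos : ∃ r : ℝ, 0 < r ∧ E₆ UpperHalfPlane.ρ = (r : ℂ) := by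
  have hb : bernoulli 6 = 1 / 42 := by
    rw [bernoulli_eq_bernoulli'_of_ne_one (by norm_num), bernoulli'_def]
    have h5 : bernoulli' 5 = 0 := bernoulli'_eq_zero_of_odd (by decide) (by norm_num)
    norm_num [Finset.sum_range_succ, Finset.sum_range_succ', Nat.choose, h5]
  have h := EisensteinSeries.q_expansion_bernoulli (k := 6) (by norm_num) (by decide)
    UpperHalfPlane.ρ
  set x := Real.exp (-(Real.pi * √3)) with hx
  have hx0 : 0 < x := Real.exp_pos _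
  have hx1 : x < 1 / 200 := exp_lt
  have hρ : ((UpperHalfPlane.ρ : ℍ) : ℂ) = (-1 + √3 * Complex.I) / 2 := by
    apply Complex.ext <;> simp [UpperHalfPlane.ρ]
  have hq : Complex.exp (2 * (Real.pi : ℂ) * Complex.I * ((UpperHalfPlane.ρ : ℍ) : ℂ)) =
      ((-x : ℝ) : ℂ) := by
    rw [hρ, show 2 * (Real.pi : ℂ) * Complex.I * ((-1 + √3 * Complex.I) / 2) =
      -(Real.pi * Complex.I) + ((-(Real.pi * √3) : ℝ) : ℂ) by
        push_cast; linear_combination ((Real.pi : ℂ) * √3) * Complex.I_mul_I, Complex.exp_add,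
      Complex.exp_neg, Complex.exp_pi_mul_I, ← Complex.ofReal_exp, ← hx]
    push_cast
    norm_num
  have hs0 := EisensteinSeries.summable_sigma_mul_cexp_pow (k := 6) (by norm_num) UpperHalfPlane.ρ
  rw [hq] at hs0
  have hs : Summable fun n : ℕ => ((ArithmeticFunction.sigma 5 n : ℕ) : ℝ) * (-x) ^ n := by
    rw [← Complex.summable_ofReal]
    refine hs0.congr fun n => ?_
    push_cast
    rfl
  rw [hq, hb] at h
  refine ⟨1 - 504 * ∑' n : ℕ+, ((ArithmeticFunction.sigma 5 (n : ℕ) : ℕ) : ℝ) *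
    (-x) ^ ((n : ℕ) : ℤ), ?_, ?_⟩
  · have e1 : ∑' n : ℕ+, ((ArithmeticFunction.sigma 5 (n : ℕ) : ℕ) : ℝ) * (-x) ^ ((n : ℕ) : ℤ) =
        ∑' n : ℕ, ((ArithmeticFunction.sigma 5 (n + 1) : ℕ) : ℝ) * (-x) ^ (n + 1) := by
      rw [← tsum_pnat_eq_tsum_succ
        (f := fun n : ℕ => ((ArithmeticFunction.sigma 5 n : ℕ) : ℝ) * (-x) ^ n)]
      simp only [zpow_natCast]
    have hs1 : Summable fun n : ℕ =>
        ((ArithmeticFunction.sigma 5 (n + 1) : ℕ) : ℝ) * (-x) ^ (n + 1) :=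
      (summable_nat_add_iff 1).mpr hs
    have hs2 : Summable fun n : ℕ =>
        ((ArithmeticFunction.sigma 5 (n + 1 + 1) : ℕ) : ℝ) * (-x) ^ (n + 1 + 1) :=
      (summable_nat_add_iff 1).mpr hs1
    have hgeo : Summable fun n : ℕ => (64 * x ^ 2) * (12 * x) ^ n :=
      (summable_geometric_of_lt_one (by positivity) (by linarith)).mul_left _
    have hle : ∑' n : ℕ, ((ArithmeticFunction.sigma 5 (n + 1 + 1) : ℕ) : ℝ) * (-x) ^ (n + 1 + 1) ≤
        ∑' n : ℕ, (64 * x ^ 2) * (12 * x) ^ n := by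
      refine hs2.tsum_le_tsum (fun n => ?_) hgeo
      have h1 : ((ArithmeticFunction.sigma 5 (n + 1 + 1) : ℕ) : ℝ) ≤ 64 * 12 ^ n := by
        have h2 := ArithmeticFunction.sigma_le_pow_succ 5 (n + 1 + 1)
        have h3 := pow_six_le n
        have h4 : ArithmeticFunction.sigma 5 (n + 1 + 1) ≤ 64 * 12 ^ n := h2.trans h3
        exact_mod_cast h4
      calc ((ArithmeticFunction.sigma 5 (n + 1 + 1) : ℕ) : ℝ) * (-x) ^ (n + 1 + 1) ≤
          ((ArithmeticFunction.sigma 5 (n + 1 + 1) : ℕ) : ℝ) * x ^ (n + 1 + 1) := by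
            refine mul_le_mul_of_nonneg_left ?_ (Nat.cast_nonneg _)
            calc (-x) ^ (n + 1 + 1) ≤ |(-x) ^ (n + 1 + 1)| := le_abs_self _
              _ = x ^ (n + 1 + 1) := by rw [abs_pow, abs_neg, abs_of_pos hx0]
        _ ≤ (64 * 12 ^ n) * x ^ (n + 1 + 1) := mul_le_mul_of_nonneg_right h1 (by positivity)
        _ = _ := by ring
    rw [tsum_mul_left, tsum_geometric_of_lt_one (by positivity) (by linarith)] at hle
    have hle2 : 64 * x ^ 2 * (1 - 12 * x)⁻¹ ≤ x := by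
      rw [← div_eq_mul_inv, div_le_iff₀ (by linarith)]
      nlinarith
    rw [e1, hs1.tsum_eq_zero_add]
    have h1 : ((ArithmeticFunction.sigma 5 (0 + 1) : ℕ) : ℝ) * (-x) ^ (0 + 1) = -x := by
      simp
    rw [h1]
    linarith
  · have e : E₆ UpperHalfPlane.ρ = E (k := 6) (by norm_num) UpperHalfPlane.ρ := rfl
    rw [e, h]
    push_cast
    norm_num

theorem E₆_ρ : E₆ UpperHalfPlane.ρ =
    ((27 * Real.Gamma (1 / 3) ^ 18 / (512 * Real.pi ^ 12) : ℝ) : ℂ) := by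
  obtain ⟨r, hr0, hr⟩ := E₆_ρ_pos
  have hG : 0 < Real.Gamma (1 / 3) := Real.Gamma_pos_of_pos (by norm_num)
  have hpi : (0 : ℝ) < Real.pi := Real.pi_pos
  have hd0 : discriminant UpperHalfPlane.ρ = (E₄ UpperHalfPlane.ρ ^ 3 - E₆ UpperHalfPlane.ρ ^ 2) /
    1728 := discriminant_eq_E₄_cube_sub_E₆_sq _
  have hd : discriminant UpperHalfPlane.ρ = eta ((UpperHalfPlane.ρ : ℍ) : ℂ) ^ 24 := rfl
  rw [hd, E₄_ρ, hr] at hd0
  have hρ : ((UpperHalfPlane.ρ : ℍ) : ℂ) + 1 = (1 + √3 * Complex.I) / 2 := by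
    apply Complex.ext
    · simp [UpperHalfPlane.ρ]
      norm_num
    · simp [UpperHalfPlane.ρ]
  have he : ‖eta ((UpperHalfPlane.ρ : ℍ) : ℂ)‖ ^ 2 = ‖eta ((1 + √3 * Complex.I) / 2)‖ ^ 2 := by
    have h1 := Kron.norm_eta_smul (τ := ((UpperHalfPlane.ρ : ℍ) : ℂ)) (a := 1) (b := 1) (c := 0)
      (d := 1) UpperHalfPlane.ρ.im_pos (by norm_num)
    simp only [Int.cast_one, Int.cast_zero, one_mul, zero_mul, zero_add, div_one, norm_one] at h1
    rw [← h1, hρ]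
  have hn := congrArg norm hd0
  rw [norm_pow, norm_div, show (0 : ℂ) ^ 3 - (r : ℂ) ^ 2 = -((r : ℂ) ^ 2) by ring, norm_neg, norm_pow,
    Complex.norm_real, Real.norm_eq_abs, abs_of_pos hr0, show ‖(1728 : ℂ)‖ = 1728 by norm_num,
    show (24 : ℕ) = 2 * 12 by norm_num, pow_mul, he, Kron.norm_eta_omega] at hn
  have hp : ((3 : ℝ) ^ (1 / 8 : ℝ)) ^ 24 = 27 := by
    rw [← Real.rpow_natCast ((3 : ℝ) ^ (1 / 8 : ℝ)) 24, ← Real.rpow_mul (by norm_num)]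
    norm_num
  have hp2 : (Real.Gamma (1 / 3) ^ (3 / 2 : ℝ)) ^ 24 = Real.Gamma (1 / 3) ^ 36 := by
    rw [← Real.rpow_natCast (Real.Gamma (1 / 3) ^ (3 / 2 : ℝ)) 24, ← Real.rpow_mul hG.le,
      ← Real.rpow_natCast (Real.Gamma (1 / 3)) 36]
    norm_num
  rw [← pow_mul, show 2 * 12 = 24 by norm_num, div_pow, mul_pow, hp, hp2] at hn
  have h2 : r ^ 2 = (27 * Real.Gamma (1 / 3) ^ 18 / (512 * Real.pi ^ 12)) ^ 2 := by
    rw [eq_div_iff (by norm_num : (1728 : ℝ) ≠ 0)] at hn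
    rw [← hn]
    field_simp
    norm_num
  rw [hr]
  congr 1
  exact (pow_left_inj₀ hr0.le (by positivity) two_ne_zero).mp h2

/-- **`∑ 1 / (m + n ρ)⁶ = Γ(1/3)¹⁸ / (8960 π⁶)`** -/
theorem G6_rho : (mkPP 1 one_ne_zero UpperHalfPlane.ρ).G 6 =
    ((Real.Gamma (1 / 3) ^ 18 / (8960 * Real.pi ^ 6) : ℝ) : ℂ) := by
  have h := g₃_mkPP 1 one_ne_zero UpperHalfPlane.ρ
  rw [PeriodPair.g₃, E₆_ρ] at h
  have hpi : (Real.pi : ℂ) ≠ 0 := by exact_mod_cast Real.pi_ne_zero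
  have h2 : (mkPP 1 one_ne_zero UpperHalfPlane.ρ).G 6 = (2 * (Real.pi : ℂ) / 1) ^ 6 *
      ((27 * Real.Gamma (1 / 3) ^ 18 / (512 * Real.pi ^ 12) : ℝ) : ℂ) / 216 / 140 := by
    rw [← h]; ring
  rw [h2]
  push_cast
  field_simp
  ring

/-- `∑ 1 / (m + n ρ)⁴ = 0` -/
theorem G4_rho : (mkPP 1 one_ne_zero UpperHalfPlane.ρ).G 4 = 0 := by
  have h := g₂_mkPP 1 one_ne_zero UpperHalfPlane.ρ
  rw [PeriodPair.g₂, E₄_ρ, mul_zero, zero_div] at h
  rcases mul_eq_zero.1 h with h | h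
  · norm_num at h
  · exact h

end Fermat.Agent.Cor.HurL
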