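import Fermat.Agent.Corollaries.HurL.Ind
import Fermat.Agent.Corollaries.HurL.ValI
import Fermat.Agent.Corollaries.HurL.ValR

/-!
# Hurwitz' theorem (1899) on the lattice sums over the Gaussian and the Eisenstein integers

* `gauss_sum`: for `k ≥ 1`, `∑ 1 / (m + n i) ^ (4 k) = r (Γ(1/4)⁸ / π²) ^ k`, `r` a positive
  rational; `gauss_sum_four`: `∑ 1 / (m + n i) ^ 4 = Γ(1/4)⁸ / (960 π²)`; `gauss_sum_zero`: the sums
  for the exponents `n ≥ 3` not divisible by `4` are `0`;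
* `eisenstein_sum`, `eisenstein_sum_six`, `eisenstein_sum_zero`: the same for
  `∑ 1 / (m + n ρ) ^ (6 k)`, `ρ = (-1 + √-3) / 2`, with `Γ(1/3)¹⁸ / π⁶`;
* `gauss_sum_eight`: `∑ 1 / (m + n i) ^ 8 = Γ(1/4)¹⁶ / (2150400 π⁴)`.

The sums are over the pairs of integers; the term `(0, 0)` is `0` in Lean.
-/

set_option autoImplicit false

open UpperHalfPlane Fermat.Agent.Moduli

noncomputable section

namespace Fermat.Agent.Cor.HurL

/-- the lattice sum as a sum over the pairs of integers -/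
theorem G_eq_tsum (τ : ℍ) (n : ℕ) : (mkPP 1 one_ne_zero τ).G n =
    ∑' x : ℤ × ℤ, (((x.1 : ℂ) + x.2 * τ) ^ n)⁻¹ := by
  rw [PeriodPair.G, ← (mkPP 1 one_ne_zero τ).latticeEquivProd.symm.toEquiv.tsum_eq]
  refine tsum_congr fun x => ?_
  have e : (((mkPP 1 one_ne_zero τ).latticeEquivProd.symm.toEquiv x :
      (mkPP 1 one_ne_zero τ).lattice) : ℂ) = x.1 + x.2 * τ := by
    have := (mkPP 1 one_ne_zero τ).latticeEquiv_symm_apply x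
    simp only [mkPP_ω₁, mkPP_ω₂] at this
    rw [show (((mkPP 1 one_ne_zero τ).latticeEquivProd.symm.toEquiv x :
      (mkPP 1 one_ne_zero τ).lattice) : ℂ) =
      ((mkPP 1 one_ne_zero τ).latticeEquivProd.symm x).1 from rfl, this]
    ring
  rw [e]

theorem G_three (L : PeriodPair) : L.G 3 = 0 := L.G_eq_zero_of_odd 3 (by decide)

theorem G_five (L : PeriodPair) : L.G 5 = 0 := L.G_eq_zero_of_odd 5 (by decide)

theorem exists_root {a : ℝ} (ha : 0 ≤ a) {d : ℕ} (hd : d ≠ 0) : ∃ ω : ℂ, ω ^ d = (a : ℂ) := by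
  refine ⟨((a ^ ((d : ℝ)⁻¹) : ℝ) : ℂ), ?_⟩
  rw [← Complex.ofReal_pow, Real.rpow_inv_natCast_pow ha hd]

/-! ### The Gaussian integers -/

theorem gauss_aux {n : ℕ} (hn : 3 ≤ n) : ∃ (ω : ℂ) (r : ℚ),
    ω ^ 4 = ((Real.Gamma (1 / 4) ^ 8 / (960 * Real.pi ^ 2) : ℝ) : ℂ) ∧
    (mkPP 1 one_ne_zero UpperHalfPlane.I).G n = r * ω ^ n ∧ (4 ∣ n → 0 < r) ∧
      (¬ 4 ∣ n → r = 0) := by
  have hG : 0 < Real.Gamma (1 / 4) := Real.Gamma_pos_of_pos (by norm_num)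
  have hpi := Real.pi_pos
  obtain ⟨ω, hω⟩ := exists_root (a := Real.Gamma (1 / 4) ^ 8 / (960 * Real.pi ^ 2))
    (by positivity) (d := 4) (by norm_num)
  obtain ⟨r, h1, -, h2, h3⟩ := exists_rat (g := (mkPP 1 one_ne_zero UpperHalfPlane.I).G)
    (G_rec _) (d := 4) (by norm_num) (by norm_num) (ω := ω) (fun k hk hk' => by
      interval_cases k
      · rw [G_three, if_neg (by norm_num)]
      · rw [G4_I, if_pos rfl, hω]
      · rw [G_five, if_neg (by norm_num)]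
      · rw [G6_I, if_neg (by norm_num)]) n hn
  exact ⟨ω, r, hω, h1, h2, h3⟩

/-- `∑ 1 / (m + n i) ^ 4 = Γ(1/4)⁸ / (960 π²)` -/
theorem gauss_sum_four : ∑' x : ℤ × ℤ, (((x.1 : ℂ) + x.2 * Complex.I) ^ 4)⁻¹ =
    ((Real.Gamma (1 / 4) ^ 8 / (960 * Real.pi ^ 2) : ℝ) : ℂ) := by
  rw [← G4_I, G_eq_tsum]
  rfl

/-- the sums of the powers `1 / (m + n i) ^ n` for `n` not divisible by `4` -/
theorem gauss_sum_zero {n : ℕ} (hn : 3 ≤ n) (h4 : ¬ 4 ∣ n) :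
    ∑' x : ℤ × ℤ, (((x.1 : ℂ) + x.2 * Complex.I) ^ n)⁻¹ = 0 := by
  obtain ⟨ω, r, -, h1, -, h3⟩ := gauss_aux hn
  rw [h3 h4, Rat.cast_zero, zero_mul, G_eq_tsum] at h1
  exact h1

/-- **Hurwitz (1899)**: `∑ 1 / (m + n i) ^ (4 k) = r (Γ(1/4)⁸ / π²) ^ k`, `r` a positive rational
number. -/
theorem gauss_sum {k : ℕ} (hk : 1 ≤ k) : ∃ r : ℚ, 0 < r ∧
    ∑' x : ℤ × ℤ, (((x.1 : ℂ) + x.2 * Complex.I) ^ (4 * k))⁻¹ =
      ((r * (Real.Gamma (1 / 4) ^ 8 / Real.pi ^ 2) ^ k : ℝ) : ℂ) := by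
  obtain ⟨ω, r, hω, h1, h2, -⟩ := gauss_aux (n := 4 * k) (by omega)
  refine ⟨r / 960 ^ k, div_pos (h2 (Dvd.intro _ rfl)) (by positivity), ?_⟩
  rw [G_eq_tsum, pow_mul ω, hω] at h1
  refine Eq.trans ?_ (h1.trans ?_)
  · rfl
  · have e : Real.Gamma (1 / 4) ^ 8 / (960 * Real.pi ^ 2) =
        (960 : ℝ)⁻¹ * (Real.Gamma (1 / 4) ^ 8 / Real.pi ^ 2) := by
      have := Real.pi_pos
      field_simp
    rw [e]
    push_cast
    rw [mul_pow, inv_pow]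
    ring

/-- `∑ 1 / (m + n i) ^ 8 = Γ(1/4)¹⁶ / (2150400 π⁴)` -/
theorem gauss_sum_eight : ∑' x : ℤ × ℤ, (((x.1 : ℂ) + x.2 * Complex.I) ^ 8)⁻¹ =
    ((Real.Gamma (1 / 4) ^ 16 / (2150400 * Real.pi ^ 4) : ℝ) : ℂ) := by
  have h := G_rec (mkPP 1 one_ne_zero UpperHalfPlane.I) 1
  rw [show (1 : ℕ) + 1 = 2 by norm_num, Finset.Nat.sum_antidiagonal_eq_sum_range_succ_mk,
    Finset.sum_range_succ, Finset.sum_range_succ, Finset.sum_range_succ, Finset.sum_range_zero] at h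
  norm_num [G_three, G_five, G4_I] at h
  have h2 : (mkPP 1 one_ne_zero UpperHalfPlane.I).G 8 =
      ∑' x : ℤ × ℤ, (((x.1 : ℂ) + x.2 * Complex.I) ^ 8)⁻¹ := by
    rw [G_eq_tsum]
    rfl
  rw [← h2]
  have hpi : (Real.pi : ℂ) ≠ 0 := by exact_mod_cast Real.pi_ne_zero
  push_cast
  field_simp at h ⊢
  linear_combination h / 54

/-! ### The Eisenstein integers -/

theorem eisenstein_aux {n : ℕ} (hn : 3 ≤ n) : ∃ (ω : ℂ) (r : ℚ),
    ω ^ 6 = ((Real.Gamma (1 / 3) ^ 18 / (8960 * Real.pi ^ 6) : ℝ) : ℂ) ∧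
    (mkPP 1 one_ne_zero UpperHalfPlane.ρ).G n = r * ω ^ n ∧ (6 ∣ n → 0 < r) ∧
      (¬ 6 ∣ n → r = 0) := by
  have hG : 0 < Real.Gamma (1 / 3) := Real.Gamma_pos_of_pos (by norm_num)
  have hpi := Real.pi_pos
  obtain ⟨ω, hω⟩ := exists_root (a := Real.Gamma (1 / 3) ^ 18 / (8960 * Real.pi ^ 6))
    (by positivity) (d := 6) (by norm_num)
  obtain ⟨r, h1, -, h2, h3⟩ := exists_rat (g := (mkPP 1 one_ne_zero UpperHalfPlane.ρ).G)
    (G_rec _) (d := 6) (by norm_num) (by norm_num) (ω := ω) (fun k hk hk' => by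
      interval_cases k
      · rw [G_three, if_neg (by norm_num)]
      · rw [G4_rho, if_neg (by norm_num)]
      · rw [G_five, if_neg (by norm_num)]
      · rw [G6_rho, if_pos rfl, hω]) n hn
  exact ⟨ω, r, hω, h1, h2, h3⟩

/-- `∑ 1 / (m + n ρ) ^ 6 = Γ(1/3)¹⁸ / (8960 π⁶)` -/
theorem eisenstein_sum_six : ∑' x : ℤ × ℤ,
    (((x.1 : ℂ) + x.2 * ((-1 + √3 * Complex.I) / 2)) ^ 6)⁻¹ =
    ((Real.Gamma (1 / 3) ^ 18 / (8960 * Real.pi ^ 6) : ℝ) : ℂ) := by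
  have hρ : ((UpperHalfPlane.ρ : ℍ) : ℂ) = (-1 + √3 * Complex.I) / 2 := by
    apply Complex.ext <;> simp [UpperHalfPlane.ρ]
  rw [← G6_rho, G_eq_tsum, hρ]

/-- the sums of the powers `1 / (m + n ρ) ^ n` for `n` not divisible by `6` -/
theorem eisenstein_sum_zero {n : ℕ} (hn : 3 ≤ n) (h6 : ¬ 6 ∣ n) :
    ∑' x : ℤ × ℤ, (((x.1 : ℂ) + x.2 * ((-1 + √3 * Complex.I) / 2)) ^ n)⁻¹ = 0 := by
  have hρ : ((UpperHalfPlane.ρ : ℍ) : ℂ) = (-1 + √3 * Complex.I) / 2 := by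
    apply Complex.ext <;> simp [UpperHalfPlane.ρ]
  obtain ⟨ω, r, -, h1, -, h3⟩ := eisenstein_aux hn
  rw [h3 h6, Rat.cast_zero, zero_mul, G_eq_tsum, hρ] at h1
  exact h1

/-- **The theorem for the Eisenstein integers**:
`∑ 1 / (m + n ρ) ^ (6 k) = r (Γ(1/3)¹⁸ / π⁶) ^ k`, `r` a positive rational number. -/
theorem eisenstein_sum {k : ℕ} (hk : 1 ≤ k) : ∃ r : ℚ, 0 < r ∧
    ∑' x : ℤ × ℤ, (((x.1 : ℂ) + x.2 * ((-1 + √3 * Complex.I) / 2)) ^ (6 * k))⁻¹ =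
      ((r * (Real.Gamma (1 / 3) ^ 18 / Real.pi ^ 6) ^ k : ℝ) : ℂ) := by
  have hρ : ((UpperHalfPlane.ρ : ℍ) : ℂ) = (-1 + √3 * Complex.I) / 2 := by
    apply Complex.ext <;> simp [UpperHalfPlane.ρ]
  obtain ⟨ω, r, hω, h1, h2, -⟩ := eisenstein_aux (n := 6 * k) (by omega)
  refine ⟨r / 8960 ^ k, div_pos (h2 (Dvd.intro _ rfl)) (by positivity), ?_⟩
  rw [G_eq_tsum, pow_mul ω, hω, hρ] at h1
  refine h1.trans ?_
  have e : Real.Gamma (1 / 3) ^ 18 / (8960 * Real.pi ^ 6) =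
      (8960 : ℝ)⁻¹ * (Real.Gamma (1 / 3) ^ 18 / Real.pi ^ 6) := by
    have := Real.pi_pos
    field_simp
  rw [e]
  push_cast
  rw [mul_pow, inv_pow]
  ring

end Fermat.Agent.Cor.HurL

end
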