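import Mathlib

/-!
# The recursion for the lattice sums `G_n`

For every period pair `L` and every `n`:
`(n + 1) (n + 8) (n + 6) G_(n+7) = 6 ∑_{i + j = n + 1} (i + 2) (j + 2) G_(i+3) G_(j+3)` (`G_rec`),
from the differential equation of `℘`.
-/

set_option autoImplicit false

open PowerSeries Filter Topology

open scoped PeriodPair Nat

noncomputable section

namespace Fermat.Agent.Cor.HurL

/-- the Taylor series at `0` -/
def tay (f : ℂ → ℂ) : PowerSeries ℂ := PowerSeries.mk fun n => iteratedDeriv n f 0 / n !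

theorem tay_congr {f g : ℂ → ℂ} (h : f =ᶠ[𝓝 0] g) : tay f = tay g := by
  ext n
  simp only [tay, coeff_mk]
  rw [h.iteratedDeriv_eq]

theorem tay_mul {f g : ℂ → ℂ} (hf : AnalyticAt ℂ f 0) (hg : AnalyticAt ℂ g 0) :
    tay (fun z => f z * g z) = tay f * tay g := by
  ext n
  rw [coeff_mul, Finset.Nat.sum_antidiagonal_eq_sum_range_succ_mk]
  simp only [tay, coeff_mk]
  have h := iteratedDeriv_mul (n := n) hf.contDiffAt hg.contDiffAt
  change iteratedDeriv n (f * g) 0 / _ = _
  rw [h, Finset.sum_div]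
  refine Finset.sum_congr rfl fun i hi => ?_
  have hi' : i ≤ n := by
    rw [Finset.mem_range] at hi
    omega
  rw [Nat.cast_choose ℂ hi']
  have h1 : (n ! : ℂ) ≠ 0 := by exact_mod_cast Nat.factorial_ne_zero n
  have h2 : (i ! : ℂ) ≠ 0 := by exact_mod_cast Nat.factorial_ne_zero i
  have h3 : ((n - i)! : ℂ) ≠ 0 := by exact_mod_cast Nat.factorial_ne_zero (n - i)
  field_simp

theorem tay_add {f g : ℂ → ℂ} (hf : AnalyticAt ℂ f 0) (hg : AnalyticAt ℂ g 0) :
    tay (fun z => f z + g z) = tay f + tay g := by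
  ext n
  simp only [tay, coeff_mk, map_add]
  have h := iteratedDeriv_add (n := n) hf.contDiffAt hg.contDiffAt
  change iteratedDeriv n (f + g) 0 / _ = _
  rw [h, add_div]

theorem tay_const (c : ℂ) : tay (fun _ => c) = C c := by
  ext n
  simp only [tay, coeff_mk, coeff_C]
  rw [iteratedDeriv_const]
  split_ifs with h
  · simp [h]
  · simp

theorem tay_pow (k : ℕ) : tay (fun z => z ^ k) = (X : PowerSeries ℂ) ^ k := by
  ext n
  simp only [tay, coeff_mk, coeff_X_pow]
  rw [iteratedDeriv_fun_pow_zero]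
  split_ifs with h
  · subst h
    have h1 : (n ! : ℂ) ≠ 0 := by exact_mod_cast Nat.factorial_ne_zero n
    exact div_self h1
  · simp

variable (L : PeriodPair)

/-- the Taylor series of `℘(z) - 1 / z²` -/
def pser : PowerSeries ℂ := tay ℘[L - (0 : ℂ)]

theorem coeff_pser (n : ℕ) : coeff n (pser L) = if n = 0 then 0 else ((n : ℂ) + 1) * L.G (n + 2) := by
  rw [pser, tay, coeff_mk, L.iteratedDeriv_weierstrassPExcept_self]
  split_ifs with h
  · simp
  · have h1 : (n ! : ℂ) ≠ 0 := by exact_mod_cast Nat.factorial_ne_zero n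
    rw [Nat.factorial_succ, L.sumInvPow_zero]
    push_cast
    field_simp

theorem tay_deriv : tay ℘'[L - (0 : ℂ)] = derivative ℂ (pser L) := by
  ext n
  rw [coeff_derivative, coeff_pser, if_neg (by omega), tay, coeff_mk,
    L.iteratedDeriv_derivWeierstrassPExcept_self, L.sumInvPow_zero, Nat.factorial_succ,
    Nat.factorial_succ]
  have h1 : (n ! : ℂ) ≠ 0 := by exact_mod_cast Nat.factorial_ne_zero n
  push_cast
  field_simp

theorem relation_eventually : (fun z : ℂ => (℘'[L - (0 : ℂ)] z * z ^ 3 + (-2)) *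
      (℘'[L - (0 : ℂ)] z * z ^ 3 + (-2)) + ((-4) * ((℘[L - (0 : ℂ)] z * z ^ 2 + 1) *
      ((℘[L - (0 : ℂ)] z * z ^ 2 + 1) * (℘[L - (0 : ℂ)] z * z ^ 2 + 1))) +
      (L.g₂ * (℘[L - (0 : ℂ)] z * z ^ 6 + z ^ 4) + L.g₃ * z ^ 6))) =ᶠ[𝓝 0] fun _ => 0 := by
  filter_upwards [L.compl_lattice_sdiff_singleton_mem_nhds _] with z hz
  by_cases hz0 : z = 0
  · simp [hz0]
    norm_num
  replace hz : z ∉ L.lattice := by simp_all
  have h := L.derivWeierstrassP_sq z hz
  have h1 := L.derivWeierstrassPExcept_def 0 z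
  have h2 := L.weierstrassPExcept_def 0 z
  simp only [ZeroMemClass.coe_zero, sub_zero] at h1 h2
  have e1 : ℘'[L - (0 : ℂ)] z * z ^ 3 = ℘'[L] z * z ^ 3 + 2 := by
    rw [h1] 
    field_simp
    try ring
  have e2 : ℘[L - (0 : ℂ)] z * z ^ 2 = ℘[L] z * z ^ 2 - 1 := by
    rw [h2]
    field_simp
    try ring
  have e3 : ℘[L - (0 : ℂ)] z * z ^ 6 = ℘[L] z * z ^ 6 - z ^ 4 := by
    linear_combination z ^ 4 * e2
  rw [e1, e2, e3]
  linear_combination z ^ 6 * h

theorem relation_pser : (derivative ℂ (pser L) * X ^ 3 - 2) ^ 2 - 4 * (pser L * X ^ 2 + 1) ^ 3 +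
    C L.g₂ * (pser L * X ^ 6 + X ^ 4) + C L.g₃ * X ^ 6 = 0 := by
  have h := tay_congr (relation_eventually L)
  have a1 : AnalyticAt ℂ ℘'[L - (0 : ℂ)] 0 := L.analyticAt_derivWeierstrassPExcept 0
  have a2 : AnalyticAt ℂ ℘[L - (0 : ℂ)] 0 := L.analyticAt_weierstrassPExcept 0
  have b : ∀ k : ℕ, AnalyticAt ℂ (fun z : ℂ => z ^ k) 0 := fun k => by fun_prop
  have c : ∀ a : ℂ, AnalyticAt ℂ (fun _ : ℂ => a) 0 := fun a => analyticAt_const
  have a5 := a1.fun_mul (b 3)
  have a6 := a2.fun_mul (b 2)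
  have a7 := a2.fun_mul (b 6)
  have a3 := a5.fun_add (c (-2))
  have a4 := a6.fun_add (c 1)
  have a8 := a7.fun_add (b 4)
  have a9 := a4.fun_mul a4
  have a10 := a4.fun_mul a9
  have a11 := (c (-4)).fun_mul a10
  have a12 := (c L.g₂).fun_mul a8
  have a13 := (c L.g₃).fun_mul (b 6)
  have a14 := a12.fun_add a13
  have a15 := a11.fun_add a14
  have a16 := a3.fun_mul a3
  have hp : tay ℘[L - (0 : ℂ)] = pser L := rfl
  have q1 := tay_add a5 (c (-2))
  rw [tay_mul a1 (b 3), tay_deriv, tay_const, tay_pow] at q1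
  have q2 := tay_add a6 (c 1)
  rw [tay_mul a2 (b 2), tay_const, tay_pow, hp] at q2
  have q3 := tay_add a7 (b 4)
  rw [tay_mul a2 (b 6), tay_pow, tay_pow, hp] at q3
  rw [tay_add a16 a15, tay_add a11 a14, tay_add a12 a13, tay_mul a3 a3, tay_mul (c (-4)) a10,
    tay_mul a4 a9, tay_mul a4 a4, tay_mul (c L.g₂) a8, tay_mul (c L.g₃) (b 6), q1, q2, q3, tay_pow,
    tay_const, tay_const, tay_const, tay_const] at h
  simp only [map_neg, map_zero, map_one, map_ofNat] at h
  linear_combination h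

/-- `℘'' = 6 ℘² - g₂ / 2` -/
theorem second_pser : X ^ 2 * derivative ℂ (derivative ℂ (pser L)) - 12 * pser L -
    6 * X ^ 2 * pser L ^ 2 + C (L.g₂ / 2) * X ^ 2 = 0 := by
  have h := relation_pser L
  set p := pser L with hp
  set p' := derivative ℂ p with hp'
  set p'' := derivative ℂ p' with hp''
  have h2 : C L.g₂ = 2 * C (L.g₂ / 2) := by
    rw [show (2 : PowerSeries ℂ) = C 2 from (map_ofNat C 2).symm, ← map_mul]
    congr 1
    ring
  have hX : derivative ℂ (X : PowerSeries ℂ) = 1 := derivative_X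
  have hXn : ∀ k : ℕ, derivative ℂ ((X : PowerSeries ℂ) ^ (k + 1)) = ((k : PowerSeries ℂ) + 1) * X ^ k := by
    intro k
    rw [Derivation.leibniz_pow, hX]
    simp
  have hC : ∀ a : ℂ, derivative ℂ (C a) = 0 := fun a => derivative_C
  have hd := congrArg (derivative ℂ) h
  rw [map_zero, map_add, map_add, map_sub, Derivation.leibniz_pow, Derivation.leibniz,
    Derivation.leibniz, Derivation.leibniz, Derivation.leibniz_pow, map_sub, map_add, map_add,
    Derivation.leibniz, Derivation.leibniz, Derivation.leibniz, hXn 2, hXn 1, hXn 5, hXn 3, hC, hC] at hd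
  have h4 : derivative ℂ (4 : PowerSeries ℂ) = 0 := by
    rw [show (4 : PowerSeries ℂ) = C 4 from (map_ofNat C 4).symm, hC]
  have h5 : derivative ℂ (2 : PowerSeries ℂ) = 0 := by
    rw [show (2 : PowerSeries ℂ) = C 2 from (map_ofNat C 2).symm, hC]
  have h6 : derivative ℂ (1 : PowerSeries ℂ) = 0 := by
    rw [show (1 : PowerSeries ℂ) = C 1 from (map_one C).symm, hC]
  rw [h4, h5, h6] at hd
  simp only [smul_eq_mul, nsmul_eq_mul] at hd
  rw [← hp', ← hp''] at hd
  have h20 : (2 : PowerSeries ℂ) ≠ 0 := by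
    intro h0
    have h7 := congrArg (constantCoeff (R := ℂ)) h0
    rw [map_ofNat, map_zero] at h7
    exact two_ne_zero h7
  have hne : (p' * X ^ 3 - 2) * (2 * X ^ 2) ≠ 0 := by
    refine mul_ne_zero (fun h0 => ?_) (mul_ne_zero h20 (pow_ne_zero 2 X_ne_zero))
    have h7 := congrArg (constantCoeff (R := ℂ)) h0
    rw [map_sub, map_mul, map_pow, constantCoeff_X, map_ofNat, map_zero, zero_pow three_ne_zero,
      mul_zero, zero_sub, neg_eq_zero] at h7
    exact two_ne_zero h7
  refine mul_left_cancel₀ hne ?_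
  rw [mul_zero]
  push_cast at hd
  rw [h2] at h hd
  linear_combination X * hd - 6 * h

/-- **The recursion for the lattice sums.** -/
theorem G_rec (n : ℕ) : ((n : ℂ) + 1) * (n + 8) * (n + 6) * L.G (n + 7) =
    6 * ∑ x ∈ Finset.HasAntidiagonal.antidiagonal (n + 1),
      ((x.1 : ℂ) + 2) * (x.2 + 2) * (L.G (x.1 + 3) * L.G (x.2 + 3)) := by
  have h := congrArg (coeff (n + 3 + 2)) (second_pser L)
  have e1 : coeff (n + 3 + 2) (X ^ 2 * derivative ℂ (derivative ℂ (pser L))) =
      ((n : ℂ) + 6) * L.G (n + 7) * (n + 5) * (n + 4) := by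
    rw [coeff_X_pow_mul, coeff_derivative, coeff_derivative, coeff_pser, if_neg (by omega)]
    push_cast
    ring
  have e2 : coeff (n + 3 + 2) (12 * pser L) = 12 * (((n : ℂ) + 6) * L.G (n + 7)) := by
    rw [show (12 : PowerSeries ℂ) = C 12 from (map_ofNat C 12).symm, coeff_C_mul, coeff_pser,
      if_neg (by omega)]
    push_cast
    ring
  have e3 : coeff (n + 3 + 2) (6 * X ^ 2 * pser L ^ 2) =
      6 * ∑ x ∈ Finset.HasAntidiagonal.antidiagonal (n + 1),
      ((x.1 : ℂ) + 2) * (x.2 + 2) * (L.G (x.1 + 3) * L.G (x.2 + 3)) := by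
    rw [show (6 : PowerSeries ℂ) * X ^ 2 * pser L ^ 2 = X ^ 2 * (C 6 * pser L ^ 2) by
      rw [show (6 : PowerSeries ℂ) = C 6 from (map_ofNat C 6).symm]; ring, coeff_X_pow_mul,
      coeff_C_mul, sq, coeff_mul, Finset.Nat.antidiagonal_succ, Finset.sum_cons,
      Finset.sum_map, coeff_pser, if_pos rfl, zero_mul, zero_add, Finset.Nat.antidiagonal_succ',
      Finset.sum_cons, Finset.sum_map]
    simp only [Function.Embedding.prodMap, Function.Embedding.coeFn_mk, Prod.map,
      Function.Embedding.refl_apply, coeff_pser, if_true, mul_zero, zero_add, Nat.succ_eq_add_one,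
      Nat.add_eq_zero_iff, one_ne_zero, and_false, if_false]
    congr 1
    refine Finset.sum_congr rfl fun x _ => ?_
    push_cast
    ring
  have e4 : coeff (n + 3 + 2) (C (L.g₂ / 2) * X ^ 2 : PowerSeries ℂ) = 0 := by
    rw [coeff_C_mul, coeff_X_pow, if_neg (by omega), mul_zero]
  rw [map_add, map_sub, map_sub, e1, e2, e3, e4, map_zero] at h
  linear_combination h

end Fermat.Agent.Cor.HurL

end
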