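import Fermat.Agent.Corollaries.HurL.Lambert

/-!
# `∑ n / (e ^ (2 π n) - 1) = 1 / 24 - 1 / (8 π)`

From Mathlib's transformation formula of `G₂` at the fixed point `i` of `S`: `G₂(i) = π`.
-/

set_option autoImplicit false

open UpperHalfPlane ModularForm EisensteinSeries ModularGroup

noncomputable section

namespace Fermat.Agent.Cor.HurL

/-- `G₂(i) = π`, so `E₂(i) = 3 / π` -/
theorem G2_I : G2 UpperHalfPlane.I = (Real.pi : ℂ) := by
  have h := G2_S_transform UpperHalfPlane.I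
  have hS : S • UpperHalfPlane.I = UpperHalfPlane.I := by
    apply UpperHalfPlane.ext
    rw [modular_S_smul]
    change (-Complex.I)⁻¹ = Complex.I
    rw [← Complex.inv_I, inv_inv]
  rw [hS, UpperHalfPlane.coe_I, Complex.I_sq] at h
  have hI : (Complex.I : ℂ) ≠ 0 := Complex.I_ne_zero
  have h2 : -2 * (Real.pi : ℂ) * Complex.I / Complex.I = -2 * Real.pi := by
    field_simp
  rw [h2] at h
  norm_num at h
  linear_combination h / 2

/-- **`∑ n / (e ^ (2 π n) - 1) = 1 / 24 - 1 / (8 π)`** -/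
theorem lambert_one :
    ∑' n : ℕ+, ((n : ℕ) : ℝ) / (Real.exp (2 * Real.pi * ((n : ℕ) : ℝ)) - 1) =
      1 / 24 - 1 / (8 * Real.pi) := by
  have hpi := Real.pi_pos
  have h := G2_eq_tsum_cexp (z := UpperHalfPlane.I)
  rw [G2_I, riemannZeta_two] at h
  set r := Real.exp (-(2 * Real.pi)) with hr
  have hr0 : 0 < r := Real.exp_pos _
  have hr1 : r < 1 := by
    rw [hr, Real.exp_lt_one_iff]
    linarith
  have hq : Complex.exp (2 * Real.pi * Complex.I * ((UpperHalfPlane.I : ℍ) : ℂ)) =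
      ((r : ℝ) : ℂ) := by
    rw [UpperHalfPlane.coe_I, hr, Complex.ofReal_exp]
    congr 1
    push_cast
    linear_combination (2 * (Real.pi : ℂ)) * Complex.I_mul_I
  have hL := tsum_pow_div_one_sub_eq_tsum_sigma (𝕜 := ℝ) (r := r)
    (by rw [Real.norm_eq_abs, abs_of_pos hr0]; exact hr1) 1
  have hS : (∑' n : ℕ+, (ArithmeticFunction.sigma 1 n : ℂ) *
      Complex.exp (2 * Real.pi * Complex.I * ((UpperHalfPlane.I : ℍ) : ℂ)) ^ (n : ℕ)) =
      ((∑' n : ℕ+, (ArithmeticFunction.sigma 1 n : ℝ) * r ^ (n : ℕ) : ℝ) : ℂ) := by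
    rw [hq]
    push_cast
    rfl
  rw [hS, ← hL] at h
  have e : ∀ n : ℕ+, ((n : ℕ) : ℝ) ^ 1 * r ^ (n : ℕ) / (1 - r ^ (n : ℕ)) =
      ((n : ℕ) : ℝ) / (Real.exp (2 * Real.pi * ((n : ℕ) : ℝ)) - 1) := by
    intro n
    have h1 : r ^ (n : ℕ) = (Real.exp (2 * Real.pi * ((n : ℕ) : ℝ)))⁻¹ := by
      rw [hr, ← Real.exp_nat_mul, ← Real.exp_neg]
      congr 1
      ring
    have h2 : (1 : ℝ) < Real.exp (2 * Real.pi * ((n : ℕ) : ℝ)) := by
      rw [Real.one_lt_exp_iff]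
      have : (0 : ℝ) < ((n : ℕ) : ℝ) := by exact_mod_cast n.pos
      positivity
    have h3 : Real.exp (2 * Real.pi * ((n : ℕ) : ℝ)) - 1 ≠ 0 := by linarith
    rw [h1, pow_one]
    generalize Real.exp (2 * Real.pi * ((n : ℕ) : ℝ)) = y at *
    have h4 : y ≠ 0 := by linarith
    have h5 : 1 - y⁻¹ ≠ 0 := by
      intro h6
      apply h3
      field_simp at h6
      rwa [mul_zero] at h6
    field_simp
  simp only [e] at h
  set T := ∑' n : ℕ+, ((n : ℕ) : ℝ) / (Real.exp (2 * Real.pi * ((n : ℕ) : ℝ)) - 1) with hT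
  have h2 : Real.pi = 2 * (Real.pi ^ 2 / 6) - 8 * Real.pi ^ 2 * T := by
    have : ((Real.pi : ℝ) : ℂ) = ((2 * (Real.pi ^ 2 / 6) - 8 * Real.pi ^ 2 * T : ℝ) : ℂ) := by
      push_cast
      exact h
    exact_mod_cast this
  have h3 : 8 * Real.pi ^ 2 * T = 8 * Real.pi ^ 2 * (1 / 24 - 1 / (8 * Real.pi)) := by
    have h4 : 8 * Real.pi ^ 2 * (1 / 24 - 1 / (8 * Real.pi)) = Real.pi ^ 2 / 3 - Real.pi := by
      field_simp
      ring
    rw [h4]
    linarith
  exact mul_left_cancel₀ (by positivity) h3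

end Fermat.Agent.Cor.HurL

end
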